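import Fermat.Agent.S48.A.Defs
import Fermat.Agent.ES.FrobDensity

/-!
# S48 / A-CMP : two complex representations with the same Frobenius data; removing the auxiliary prime
[key S48/A-CMP, ~350 lines; uses only `ES.FrobDensity.exists_frobenius_pow_of_factors`]

* `trace_pow_eq`: 2x2 matrices `m, m'` over a commutative ring with the same trace and determinant: `tr (m^b) = tr (m'^b)` (and `det`): Cayley–Hamilton
  `m^(b+2) = tr m • m^(b+1) - det m • m^b` (`Matrix.aeval_self_charpoly` + `Matrix.charpoly_fin_two`, or by hand with `Matrix.ext`/`Fin.sum_univ_two`/`ring` for `m² = tr m • m - det m • 1`), strong induction.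
* `factors_prod`: `ρ₁.prod ρ₂` factors through the compositum of the two levels (`IntermediateField.finiteDimensional_sup`).
* `trace_det_eq`: `exists_frobenius_pow_of_factors (ρ₁.prod ρ₂) _ S g`: `(ρ₁ g, ρ₂ g) = (ρ₁ σ, ρ₂ σ)^b`.
* `exists_pow_eq_one`: finite level ⇒ `ρ g` has finite order.  [`L` finite over `ℚ`; the restrictions of `g^n` to the normal closure `L'` of `L` (`AlgEquiv.restrictNormalHom`) lie in the finite group `Gal(L'/ℚ)`: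
  `g^n` acts trivially on `L'` for `n = orderOf (restriction) > 0`.]
* `eq_one_of_trace_det`: `m ∈ GL₂(ℂ)`, `m^n = 1`, `n > 0`, `tr m = 2`, `det m = 1` ⇒ `m = 1`.  [`ν = m - 1`: `ν² = 0` (Cayley–Hamilton: `m² - 2m + 1 = 0`); `m^n = 1 + n ν` (induction / `Commute.add_pow`), so `n ν = 0`.]
* `Att.of_two`: only `p = ℓ₁` has to be treated (`p ∤ N`, `p ≠ ℓ₁` ⇒ `p ∤ N ℓ₁`, prime).  `ℓ₁ ∤ N ℓ₂`.  `S` = prime divisors of `N ℓ₁ ℓ₂` (`(N*ℓ₁*ℓ₂).primeFactors`, `N ≠ 0`): `tr ρ₁ = tr ρ₂`, `det ρ₁ = det ρ₂` on `GQ`.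
  Inertia at `ℓ₁`: `ρ₂ σ = 1` so `tr ρ₁ σ = 2`, `det ρ₁ σ = 1`, finite order ⇒ `ρ₁ σ = 1`.  Frobenius at `ℓ₁`: transport from `ρ₂`.
-/

set_option autoImplicit false

namespace Fermat.Agent.S48

open Matrix

theorem acmp_sq {R : Type*} [CommRing R] (m : Matrix (Fin 2) (Fin 2) R) :
    m * m = m.trace • m - m.det • (1 : Matrix (Fin 2) (Fin 2) R) := by
  ext i j
  fin_cases i <;> fin_cases j <;>
    simp [Matrix.mul_apply, Fin.sum_univ_two, Matrix.trace_fin_two, Matrix.det_fin_two] <;> ring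

theorem acmp_trace_rec {R : Type*} [CommRing R] (m : Matrix (Fin 2) (Fin 2) R) (b : ℕ) :
    (m ^ (b + 2)).trace = m.trace * (m ^ (b + 1)).trace - m.det * (m ^ b).trace := by
  have h : m ^ (b + 2) = m.trace • m ^ (b + 1) - m.det • m ^ b := by
    rw [pow_add, pow_two, acmp_sq, mul_sub, mul_smul_comm, mul_smul_comm, mul_one, ← pow_succ]
  rw [h, Matrix.trace_sub, Matrix.trace_smul, Matrix.trace_smul, smul_eq_mul, smul_eq_mul]

theorem trace_pow_eq {R : Type*} [CommRing R] (m m' : Matrix (Fin 2) (Fin 2) R) (ht : m.trace = m'.trace)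
    (hd : m.det = m'.det) (b : ℕ) : (m ^ b).trace = (m' ^ b).trace := by
  have key : ∀ b : ℕ, (m ^ b).trace = (m' ^ b).trace ∧ (m ^ (b + 1)).trace = (m' ^ (b + 1)).trace := by
    intro b
    induction b with
    | zero => exact ⟨by simp, by simpa using ht⟩
    | succ b ih =>
      refine ⟨ih.2, ?_⟩
      rw [acmp_trace_rec, acmp_trace_rec, ih.1, ih.2, ht, hd]
  exact (key b).1

theorem factors_prod {M₁ M₂ : Type} [Monoid M₁] [Monoid M₂] (ρ₁ : GQ →* M₁) (ρ₂ : GQ →* M₂)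
    (h₁ : GaloisFactorsThroughFiniteLevel ρ₁) (h₂ : GaloisFactorsThroughFiniteLevel ρ₂) :
    GaloisFactorsThroughFiniteLevel (ρ₁.prod ρ₂) := by
  obtain ⟨L₁, hL₁, hk₁⟩ := h₁
  obtain ⟨L₂, hL₂, hk₂⟩ := h₂
  refine ⟨L₁ ⊔ L₂, IntermediateField.finiteDimensional_sup _ _, fun σ hσ => ?_⟩
  rw [MonoidHom.prod_apply, hk₁ σ fun x hx => hσ x ((le_sup_left : L₁ ≤ _) hx),
    hk₂ σ fun x hx => hσ x ((le_sup_right : L₂ ≤ _) hx)]
  rfl

theorem trace_det_eq (ρ₁ ρ₂ : GQ →* GL (Fin 2) ℂ) (h₁ : GaloisFactorsThroughFiniteLevel ρ₁)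
    (h₂ : GaloisFactorsThroughFiniteLevel ρ₂) (S : Finset ℕ)
    (h : ∀ (p : ℕ) (A : ValuationSubring Qb) (σ : GQ), p.Prime → p ∉ S → A.LiesOverPrime p →
      A.IsFrobeniusAt σ p →
      (ρ₁ σ : Matrix (Fin 2) (Fin 2) ℂ).trace = (ρ₂ σ : Matrix (Fin 2) (Fin 2) ℂ).trace ∧
      (ρ₁ σ : Matrix (Fin 2) (Fin 2) ℂ).det = (ρ₂ σ : Matrix (Fin 2) (Fin 2) ℂ).det) (g : GQ) :
    (ρ₁ g : Matrix (Fin 2) (Fin 2) ℂ).trace = (ρ₂ g : Matrix (Fin 2) (Fin 2) ℂ).trace ∧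
      (ρ₁ g : Matrix (Fin 2) (Fin 2) ℂ).det = (ρ₂ g : Matrix (Fin 2) (Fin 2) ℂ).det := by
  obtain ⟨p, A, σ, b, hp, hpS, hA, hσ, hg⟩ :=
    ES.FrobDensity.exists_frobenius_pow_of_factors (ρ₁.prod ρ₂) (factors_prod ρ₁ ρ₂ h₁ h₂) S g
  have e1 : ρ₁ g = ρ₁ σ ^ b := congrArg Prod.fst hg
  have e2 : ρ₂ g = ρ₂ σ ^ b := congrArg Prod.snd hg
  obtain ⟨ht, hd⟩ := h p A σ hp hpS hA hσ
  rw [e1, e2, Units.val_pow_eq_pow_val, Units.val_pow_eq_pow_val]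
  exact ⟨trace_pow_eq _ _ ht hd b, by rw [Matrix.det_pow, Matrix.det_pow, hd]⟩

theorem exists_pow_eq_one {M : Type} [Monoid M] (ρ : GQ →* M) (h : GaloisFactorsThroughFiniteLevel ρ)
    (g : GQ) : ∃ n : ℕ, 0 < n ∧ ρ g ^ n = 1 := by
  obtain ⟨L, hL, hk⟩ := h
  have := Frob.isGaloisQbar
  have hidx : L.fixingSubgroup.index ≠ 0 := by
    rw [← IntermediateField.finrank_eq_fixingSubgroup_index]
    exact Module.finrank_pos.ne'
  obtain ⟨n, hn, _, hmem⟩ := Subgroup.exists_pow_mem_of_index_ne_zero hidx g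
  refine ⟨n, hn, ?_⟩
  rw [← map_pow]
  exact hk _ fun x hx => (IntermediateField.mem_fixingSubgroup_iff L _).1 hmem x hx

theorem eq_one_of_trace_det (m : GL (Fin 2) ℂ) (n : ℕ) (hn : 0 < n) (hm : m ^ n = 1)
    (ht : (m : Matrix (Fin 2) (Fin 2) ℂ).trace = 2) (hd : (m : Matrix (Fin 2) (Fin 2) ℂ).det = 1) :
    m = 1 := by
  set μ : Matrix (Fin 2) (Fin 2) ℂ := (m : Matrix (Fin 2) (Fin 2) ℂ) with hμ
  have hsq : μ * μ = (2 : ℂ) • μ - 1 := by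
    have := acmp_sq μ
    rwa [ht, hd, one_smul] at this
  have hpow : ∀ k : ℕ, μ ^ k = 1 + (k : ℂ) • (μ - 1) := by
    intro k
    induction k with
    | zero => simp
    | succ k ih =>
      rw [pow_succ, ih, add_mul, one_mul, smul_mul_assoc, sub_mul, one_mul, hsq]
      push_cast
      module
  have h1 : μ ^ n = 1 := by
    rw [hμ, ← Units.val_pow_eq_pow_val, hm, Units.val_one]
  rw [hpow n] at h1
  have h2 : (n : ℂ) • (μ - 1) = 0 := by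
    have := congrArg (fun x => x - 1) h1
    simpa using this
  have h3 : μ - 1 = 0 := (smul_eq_zero.1 h2).resolve_left (Nat.cast_ne_zero.2 hn.ne')
  exact Units.ext (sub_eq_zero.1 h3)

theorem Att.of_two {N : ℕ} [NeZero N] {ε : DirichletCharacter ℂ N} {a : ℕ → ℂ} {ℓ₁ ℓ₂ : ℕ}
    (h₁ : ℓ₁.Prime) (h₂ : ℓ₂.Prime) (hne : ℓ₁ ≠ ℓ₂) {ρ₁ ρ₂ : GQ →* GL (Fin 2) ℂ}
    (H₁ : Att N ε a (N * ℓ₁) ρ₁) (H₂ : Att N ε a (N * ℓ₂) ρ₂) : Att N ε a N ρ₁ := by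
  have hN0 : N * ℓ₁ * ℓ₂ ≠ 0 :=
    Nat.mul_ne_zero (Nat.mul_ne_zero (NeZero.ne N) h₁.ne_zero) h₂.ne_zero
  have hcmp := trace_det_eq ρ₁ ρ₂ H₁.fin H₂.fin (N * ℓ₁ * ℓ₂).primeFactors
    (fun p A σ hp hpS hA hσ => by
      have hnd : ¬ p ∣ N * ℓ₁ * ℓ₂ := fun hd => hpS (Nat.mem_primeFactors.2 ⟨hp, hd, hN0⟩)
      have hn1 : ¬ p ∣ N * ℓ₁ := fun hd => hnd (hd.mul_right ℓ₂)
      have hn2 : ¬ p ∣ N * ℓ₂ := fun hd => hnd (by
        have : N * ℓ₁ * ℓ₂ = N * ℓ₂ * ℓ₁ := by ring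
        rw [this]
        exact hd.mul_right ℓ₁)
      exact ⟨(H₁.tr p hp hn1 A hA σ hσ).trans (H₂.tr p hp hn2 A hA σ hσ).symm,
        (H₁.det p hp hn1 A hA σ hσ).trans (H₂.det p hp hn2 A hA σ hσ).symm⟩)
  -- dichotomy
  have hdich : ∀ p : ℕ, p.Prime → ¬ p ∣ N → ¬ p ∣ N * ℓ₁ ∨ ¬ p ∣ N * ℓ₂ := by
    intro p hp hpN
    by_cases hpl : p = ℓ₁
    · right
      intro hd
      rcases (Nat.Prime.dvd_mul hp).1 hd with h | h
      · exact hpN h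
      · exact hne (hpl.symm.trans ((Nat.prime_dvd_prime_iff_eq hp h₂).1 h))
    · left
      intro hd
      rcases (Nat.Prime.dvd_mul hp).1 hd with h | h
      · exact hpN h
      · exact hpl ((Nat.prime_dvd_prime_iff_eq hp h₁).1 h)
  refine ⟨H₁.fin, ?_, ?_, ?_⟩
  · intro p hp hpN A hA σ hσ
    rcases hdich p hp hpN with h | h
    · exact H₁.unr p hp h A hA σ hσ
    · have e := H₂.unr p hp h A hA σ hσ
      obtain ⟨n, hn, hpow⟩ := exists_pow_eq_one ρ₁ H₁.fin σ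
      refine eq_one_of_trace_det _ n hn hpow ?_ ?_
      · rw [(hcmp σ).1, e]
        simp
      · rw [(hcmp σ).2, e]
        simp
  · intro p hp hpN A hA σ hσ
    rcases hdich p hp hpN with h | h
    · exact H₁.tr p hp h A hA σ hσ
    · rw [(hcmp σ).1]
      exact H₂.tr p hp h A hA σ hσ
  · intro p hp hpN A hA σ hσ
    rcases hdich p hp hpN with h | h
    · exact H₁.det p hp h A hA σ hσ
    · rw [(hcmp σ).2]
      exact H₂.det p hp h A hA σ hσ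

end Fermat.Agent.S48
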