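import Fermat.Agent.S48.A.Attach
import Fermat.Agent.S48.A.Compare

/-!
# S48 / layer A : the main theorem from the interface `Sys`
-/

set_option autoImplicit false

namespace Fermat.Agent.S48

open Matrix

theorem main_of_sys {N : ℕ} [NeZero N] {ε : DirichletCharacter ℂ N} {a : ℕ → ℂ} (h : Sys N ε a) :
    ∃ ρ : GQ →* GL (Fin 2) ℂ, Att N ε a N ρ ∧ (Deformation.matrixRepresentation ρ).IsIrreducible := by
  obtain ⟨ℓ₁, H⟩ := exists_att h
  obtain ⟨p, hp1, hp⟩ := Nat.exists_infinite_primes (ℓ₁ + 1)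
  obtain ⟨q, hq1, hq⟩ := Nat.exists_infinite_primes (p + 1)
  obtain ⟨ρ₁, h₁⟩ := H p hp (by omega)
  obtain ⟨ρ₂, h₂⟩ := H q hq (by omega)
  have h3 : Att N ε a N ρ₁ := Att.of_two hp hq (by omega) h₁ h₂
  exact ⟨ρ₁, h3, h3.irreducible h.rankin⟩

end Fermat.Agent.S48
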