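import Fermat.Agent.S48.A.Exponent
import Fermat.Agent.S48.P.Lift

/-!
# S48 / A-ATT : complex representations attached to the system outside `N ℓ`
[keys S48/A-LR (`exists_liftRes`, ~150 lines), S48/A-MEMT (`mem_TSet`, ~200 lines), S48/A-ATT (`exists_att`, ~250 lines)]

* `exists_liftRes`: `e` from `exists_exponent`, `ℓ₂ = max (ℓ₀ of P.exists_lift e) (ℓ₀ of h.res)`; `c` from `exists_conj_det`.  `ρ` from `P.exists_lift … r c`.  `ker r ⊆ ker ρ` gives the finite level and the triviality on inertia.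
  `LiftRes` records what is known.
* `mem_TSet`: `p ∤ N` prime, `x : Zbar` with `x = a p`.  `z := ∏_{u ∈ TSet e} (x - u)` (`(TSet_finite he).toFinset.prod`).  `ℓ₃` from `P.exists_bound_inj {z}`.  Take a prime `ℓ > max ℓ₂ ℓ₃ p N` (`Nat.exists_infinite_primes`): `p ∤ N ℓ`
  (`p ∣ N ℓ → p ∣ N ∨ p ∣ ℓ → p = ℓ`).  `A` over `p` (`Frob.exists_liesOverPrime`), `σ` Frobenius (`Frob.exists_isFrobeniusAt`).  `LiftRes.frob`: `t ∈ TSet e`, `φ t = φ x`: `φ z = 0` (`map_prod`, `Finset.prod_eq_zero`), so `z = 0`, `x = u` for some `u ∈ TSet e` (`Finset.prod_eq_zero_iff`).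
* `exists_att`: `ℓ₁ = max ℓ₂ (bound of exists_bound_inj for (TSet e - TSet e) ∪ (TSet e - Ez))`, `Ez` = set of the `⟨ε u, _⟩` (finite).  For `ℓ > ℓ₁`: `ρ` of `exists_liftRes`.  `p ∤ N ℓ`: `x = ⟨a p, _⟩ ∈ TSet e` (`mem_TSet`; `p ∤ N`),
  `t - x ∈ TSet e - TSet e`, `φ (t - x) = 0` ⇒ `t = x`, `tr ρ σ = a p`.  Same for `δ` and `y = ⟨ε p, _⟩`.
-/

set_option autoImplicit false

namespace Fermat.Agent.S48

open Matrix Pointwise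

/-- a complex representation whose Frobenius traces/determinants outside `N ℓ` lie in `TSet e` and are congruent to `a_p`, `ε(p)` -/
structure LiftRes (N : ℕ) (ε : DirichletCharacter ℂ N) (a : ℕ → ℂ) (e ℓ : ℕ) {k : Type} [Field k]
    (φ : Zbar →+* k) (ρ : GQ →* GL (Fin 2) ℂ) : Prop where
  fin : GaloisFactorsThroughFiniteLevel ρ
  unr : ∀ p : ℕ, p.Prime → ¬ p ∣ N * ℓ → ∀ A : ValuationSubring Qb, A.LiesOverPrime p →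
    ∀ σ ∈ A.inertiaSubgroupIn ℚ, ρ σ = 1
  frob : ∀ p : ℕ, p.Prime → ¬ p ∣ N * ℓ → ∀ A : ValuationSubring Qb, A.LiesOverPrime p →
    ∀ σ : GQ, A.IsFrobeniusAt σ p → ∀ x y : Zbar, (x : ℂ) = a p → (y : ℂ) = ε (p : ZMod N) →
      ∃ t ∈ P.TSet e, ∃ δ ∈ P.TSet e,
        (ρ σ : Matrix (Fin 2) (Fin 2) ℂ).trace = (t : ℂ) ∧ (ρ σ : Matrix (Fin 2) (Fin 2) ℂ).det = (δ : ℂ) ∧
        φ t = φ x ∧ φ δ = φ y

variable {N : ℕ} [NeZero N] {ε : DirichletCharacter ℂ N} {a : ℕ → ℂ}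

theorem exists_liftRes (h : Sys N ε a) :
    ∃ e : ℕ, 0 < e ∧ ∃ ℓ₂ : ℕ, ∀ ℓ : ℕ, ℓ.Prime → ℓ₂ < ℓ →
      ∃ (k : Type) (_ : Field k) (_ : CharP k ℓ) (φ : Zbar →+* k) (ρ : GQ →* GL (Fin 2) ℂ),
        LiftRes N ε a e ℓ φ ρ := by
  obtain ⟨e, he, hexp⟩ := exists_exponent h
  obtain ⟨ℓa, hlift⟩ := P.exists_lift e he
  obtain ⟨ℓb, hres⟩ := h.res
  obtain ⟨c, hcc, hcdet⟩ := exists_conj_det
  refine ⟨e, he, max ℓa ℓb, fun ℓ hℓ hlt => ?_⟩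
  obtain ⟨k, i1, i2, i3, φ, r, hr⟩ := hres ℓ hℓ (lt_of_le_of_lt (le_max_right _ _) hlt)
  obtain ⟨ρ, hker, hρ⟩ := hlift ℓ (lt_of_le_of_lt (le_max_left _ _) hlt) k φ r c hcc
    (hcdet N ε a ℓ k φ r hℓ h.odd hr) (hexp ℓ k φ r hℓ hr)
  refine ⟨k, i1, i3, φ, ρ, ?_, ?_, ?_⟩
  · obtain ⟨L, hL, hLk⟩ := hr.fin
    exact ⟨L, hL, fun σ hσ => hker σ (hLk σ hσ)⟩
  · exact fun p hp hpN A hA σ hσ => hker σ (hr.unr p hp hpN A hA σ hσ)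
  · intro p hp hpN A hA σ hσ x y hx hy
    obtain ⟨t, ht, δ, hδ, h1, h2, h3, h4⟩ := hρ σ
    exact ⟨t, ht, δ, hδ, h1, h2, h3.trans (hr.tr p hp hpN A hA σ hσ x hx),
      h4.trans (hr.det p hp hpN A hA σ hσ y hy)⟩

theorem not_dvd_mul_of_lt {N p ℓ : ℕ} (hp : p.Prime) (hℓ : ℓ.Prime) (hpN : ¬ p ∣ N) (hlt : p < ℓ) :
    ¬ p ∣ N * ℓ := by
  intro hd
  rcases (Nat.Prime.dvd_mul hp).mp hd with h | h
  · exact hpN h
  · have := (Nat.prime_dvd_prime_iff_eq hp hℓ).mp h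
    omega

theorem mem_TSet (e : ℕ) (he : 0 < e) (ℓ₂ : ℕ)
    (H : ∀ ℓ : ℕ, ℓ.Prime → ℓ₂ < ℓ →
      ∃ (k : Type) (_ : Field k) (_ : CharP k ℓ) (φ : Zbar →+* k) (ρ : GQ →* GL (Fin 2) ℂ),
        LiftRes N ε a e ℓ φ ρ)
    (p : ℕ) (hp : p.Prime) (hpN : ¬ p ∣ N) (x : Zbar) (hx : (x : ℂ) = a p) : x ∈ P.TSet e := by
  classical
  set TF : Finset Zbar := (P.TSet_finite he).toFinset with hTF
  set z : Zbar := ∏ u ∈ TF, (x - u) with hz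
  obtain ⟨ℓ₃, hℓ₃⟩ := P.exists_bound_inj {z} (Set.finite_singleton z)
  obtain ⟨ℓ, hℓ1, hℓ⟩ := Nat.exists_infinite_primes (max (max ℓ₂ ℓ₃) p + 1)
  have l1 : ℓ₂ < ℓ := by have := le_max_left (max ℓ₂ ℓ₃) p; have := le_max_left ℓ₂ ℓ₃; omega
  have l2 : ℓ₃ < ℓ := by have := le_max_left (max ℓ₂ ℓ₃) p; have := le_max_right ℓ₂ ℓ₃; omega
  have l3 : p < ℓ := by have := le_max_right (max ℓ₂ ℓ₃) p; omega
  obtain ⟨k, i1, i2, φ, ρ, hρ⟩ := H ℓ hℓ l1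
  obtain ⟨A, hA⟩ := Frob.exists_liesOverPrime hp
  obtain ⟨σ, hσ⟩ := Frob.exists_isFrobeniusAt A hp hA
  obtain ⟨t, ht, δ, hδ, h1, h2, h3, h4⟩ := hρ.frob p hp (not_dvd_mul_of_lt hp hℓ hpN l3) A hA σ hσ x
    ⟨ε (p : ZMod N), isIntegral_eps ε _⟩ hx rfl
  have hφz : φ z = 0 := by
    rw [hz, map_prod]
    refine Finset.prod_eq_zero ((P.TSet_finite he).mem_toFinset.mpr ht) ?_
    rw [map_sub, h3, sub_self]
  have hz0 : z = 0 := hℓ₃ ℓ l2 k φ z (Set.mem_singleton z) hφz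
  rw [hz, Finset.prod_eq_zero_iff] at hz0
  obtain ⟨u, hu, hxu⟩ := hz0
  rw [sub_eq_zero.mp hxu]
  exact (P.TSet_finite he).mem_toFinset.mp hu

theorem exists_att (h : Sys N ε a) :
    ∃ ℓ₁ : ℕ, ∀ ℓ : ℕ, ℓ.Prime → ℓ₁ < ℓ → ∃ ρ : GQ →* GL (Fin 2) ℂ, Att N ε a (N * ℓ) ρ := by
  obtain ⟨e, he, ℓ₂, H⟩ := exists_liftRes h
  set Ez : Set Zbar := Set.range fun u : ZMod N => (⟨ε u, isIntegral_eps ε u⟩ : Zbar) with hEz
  have hEzf : Ez.Finite := Set.finite_range _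
  obtain ⟨ℓ₃, hℓ₃⟩ := P.exists_bound_inj ((P.TSet e - P.TSet e) ∪ (P.TSet e - Ez))
    (((P.TSet_finite he).sub (P.TSet_finite he)).union ((P.TSet_finite he).sub hEzf))
  refine ⟨max ℓ₂ ℓ₃, fun ℓ hℓ hlt => ?_⟩
  obtain ⟨k, i1, i2, φ, ρ, hρ⟩ := H ℓ hℓ (lt_of_le_of_lt (le_max_left _ _) hlt)
  have hinj := hℓ₃ ℓ (lt_of_le_of_lt (le_max_right _ _) hlt) k φ
  have key : ∀ p : ℕ, p.Prime → ¬ p ∣ N * ℓ → ∀ A : ValuationSubring Qb, A.LiesOverPrime p →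
      ∀ σ : GQ, A.IsFrobeniusAt σ p → (ρ σ : Matrix (Fin 2) (Fin 2) ℂ).trace = a p ∧
        (ρ σ : Matrix (Fin 2) (Fin 2) ℂ).det = ε (p : ZMod N) := by
    intro p hp hpN A hA σ hσ
    have hpN' : ¬ p ∣ N := fun hd => hpN (Dvd.dvd.mul_right hd ℓ)
    set x : Zbar := ⟨a p, h.integral p hp hpN'⟩ with hx
    set y : Zbar := ⟨ε (p : ZMod N), isIntegral_eps ε _⟩ with hy
    obtain ⟨t, ht, δ, hδ, h1, h2, h3, h4⟩ := hρ.frob p hp hpN A hA σ hσ x y rfl rfl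
    have hxT : x ∈ P.TSet e := mem_TSet e he ℓ₂ H p hp hpN' x rfl
    have e1 : t - x = 0 := hinj _ (Or.inl (Set.sub_mem_sub ht hxT)) (by rw [map_sub, h3, sub_self])
    have e2 : δ - y = 0 := hinj _ (Or.inr (Set.sub_mem_sub hδ ⟨_, rfl⟩)) (by rw [map_sub, h4, sub_self])
    rw [h1, h2, sub_eq_zero.mp e1, sub_eq_zero.mp e2]
    exact ⟨rfl, rfl⟩
  exact ⟨ρ, hρ.fin, hρ.unr, fun p hp hpN A hA σ hσ => (key p hp hpN A hA σ hσ).1,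
    fun p hp hpN A hA σ hσ => (key p hp hpN A hA σ hσ).2⟩

end Fermat.Agent.S48
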