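import Fermat.Agent.S48.A.Defs
import Fermat.Agent.ES.FrobDensity
import Fermat.Agent.S30.Cyc
import Fermat.Agent.S29.Abstract

/-!
# S48 / A-CYC : a character of `GQ` given on Frobenius elements by a character mod `N` is that character of the cyclotomic action
[key S48/A-CYC, ~350 lines; uses `ES.FrobDensity.exists_frobenius_pow`, `S29.AbstractAux.frob_sub_mem`, `Frob.*` (Lib/Frobenius), `S30.exists_conj`]

* `frob_root`: `p ∤ N`, `A` over `p`, `σ` Frobenius, `ζ^N = 1` ⇒ `σ ζ = ζ^p`.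
  [`σ ζ - ζ^p ∈ A.nonunits` (`frob_sub_mem`, `ζ ∈ A` integral).  Both are `N`-th roots of unity; two distinct `N`-th roots of unity `x ≠ y` have `x - y ∉ A.nonunits`:
  `∏_{y ≠ x, y^N = 1} (x - y) = N x^(N-1)` (derivative of `X^N - 1`), a unit of `A` since `p ∤ N`  (generalise `S29.AbstractAux.pow_eq_of_sub_mem`, which is the case `N` prime:
  `η = x/y ≠ 1`, `η^N = 1`; let `n = orderOf η > 1`, `n ∣ N`, `q` a prime factor of `n`, `η' = η^(n/q)` is a primitive `q`-th root of unity, `η' - 1 ∈ (η - 1) A`, `q ≠ p`: apply the prime case).]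
* `eq_of_cyclo`: `L` = (level of `ψ`) ⊔ `ℚ(ζ)`, `ζ` a primitive `N`-th root of unity in `Qb`.  `exists_frobenius_pow L S g`: `p ∉ S`, `σ`, `b` with `g = σ^b` on `L`.
  `ψ g = ψ σ ^ b = θ p ^ b = θ (p^b)`; `ζ^u = g ζ = σ^b ζ = ζ^(p^b)` (induction with `frob_root`), so `u ≡ p^b mod N` (`IsPrimitiveRoot.pow_inj`/`pow_eq_pow_iff_modEq`) and `θ (p^b) = θ u` (`ZMod.natCast_eq_natCast_iff`).
* `exists_conj_det`: `c` from `S30.exists_conj`; `ψ = det ∘ r : GQ →* k` (monoid hom into the multiplicative monoid of `k`), `θ u = φ ⟨ε u, integral⟩` (`ε u` is `0` or a root of unity: `MulChar`, `isIntegral_eps`),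
  `S` = prime divisors of `N ℓ`, `u = N - 1` (`ζ^(N-1) = ζ⁻¹`), `θ (N - 1) = φ (ε (-1)) = φ (-1) = -1`.
-/

set_option autoImplicit false

namespace Fermat.Agent.S48

open Matrix

/-! ### rigidity of roots of unity -/

theorem acyc_mem_of_pow_eq_one (A : ValuationSubring Qb) {N : ℕ} (hN : 0 < N) {z : Qb}
    (hz : z ^ N = 1) : z ∈ A :=
  Frob.mem_of_isIntegral A (IsIntegral.of_pow hN (by rw [hz]; exact isIntegral_one))

theorem acyc_natCast_mem_nonunits (A : ValuationSubring Qb) {N : ℕ} (hN : 0 < N) {z : Qb}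
    (hz : z ^ N = 1) (hz1 : z ≠ 1) (h : 1 - z ∈ A.nonunits) : (N : Qb) ∈ A.nonunits := by
  have hzA : z ∈ A := acyc_mem_of_pow_eq_one A hN hz
  have h0 : ∑ k ∈ Finset.range N, z ^ k = 0 := by
    have := mul_neg_geom_sum z N
    rw [hz, sub_self] at this
    exact (mul_eq_zero.1 this).resolve_left (sub_ne_zero.2 hz1.symm)
  have h1 : (N : Qb) = ∑ k ∈ Finset.range N, (1 - z ^ k) := by
    rw [Finset.sum_sub_distrib, h0, sub_zero]
    simp
  rw [h1]
  refine sum_mem fun k _ => ?_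
  rw [← mul_neg_geom_sum z k]
  exact Frob.mul_mem_nonunits A h (sum_mem fun j _ => pow_mem hzA j)

theorem acyc_root_eq_of_sub_mem {A : ValuationSubring Qb} {l : ℕ} (hl : l.Prime)
    (hA : A.LiesOverPrime l) {N : ℕ} (hN : ¬ l ∣ N)
    {a b : Qb} (ha : a ^ N = 1) (hb : b ^ N = 1) (h : a - b ∈ A.nonunits) : a = b := by
  have hN0 : 0 < N := Nat.pos_of_ne_zero (by rintro rfl; exact hN (dvd_zero l))
  by_contra hne
  have hb0 : b ≠ 0 := by
    rintro rfl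
    rw [zero_pow hN0.ne'] at hb
    exact zero_ne_one hb
  have hbinv : b⁻¹ ∈ A := acyc_mem_of_pow_eq_one A hN0 (by rw [inv_pow, hb, inv_one])
  have h2 : 1 - a * b⁻¹ ∈ A.nonunits := by
    have h3 : 1 - a * b⁻¹ = -((a - b) * b⁻¹) := by
      field_simp
      ring
    rw [h3]
    exact neg_mem (Frob.mul_mem_nonunits A h hbinv)
  have h4 : (a * b⁻¹) ^ N = 1 := by rw [mul_pow, ha, inv_pow, hb, inv_one, one_mul]
  have h5 : a * b⁻¹ ≠ 1 := by
    intro h
    apply hne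
    field_simp at h
    exact h
  have h6 := acyc_natCast_mem_nonunits A hN0 h4 h5 h2
  have h7 : ¬ (l : ℤ) ∣ (N : ℤ) := fun h => hN (Int.natCast_dvd_natCast.1 h)
  exact Frob.int_not_mem_nonunits A hl hA h7 (by exact_mod_cast h6)

theorem frob_root {N p : ℕ} [NeZero N] (hp : p.Prime) (hpN : ¬ p ∣ N) (A : ValuationSubring Qb)
    (hA : A.LiesOverPrime p) (σ : GQ) (hσ : A.IsFrobeniusAt σ p) (ζ : Qb) (hζ : ζ ^ N = 1) :
    σ ζ = ζ ^ p := by
  refine acyc_root_eq_of_sub_mem hp hA hpN ?_ ?_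
    (S29.AbstractAux.frob_sub_mem A hσ (acyc_mem_of_pow_eq_one A (NeZero.pos N) hζ))
  · rw [← map_pow, hζ, map_one]
  · rw [← pow_mul, mul_comm, pow_mul, hζ, one_pow]

theorem acyc_frob_pow {N p : ℕ} [NeZero N] (hp : p.Prime) (hpN : ¬ p ∣ N) (A : ValuationSubring Qb)
    (hA : A.LiesOverPrime p) (σ : GQ) (hσ : A.IsFrobeniusAt σ p) (ζ : Qb) (hζ : ζ ^ N = 1) (b : ℕ) :
    (σ ^ b) ζ = ζ ^ (p ^ b) := by
  induction b with
  | zero => simp
  | succ b ih =>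
    rw [pow_succ', AlgEquiv.mul_apply, ih, map_pow, frob_root hp hpN A hA σ hσ ζ hζ, ← pow_mul,
      pow_succ']

theorem eq_of_cyclo {M : Type} [Monoid M] (N : ℕ) [NeZero N] (ψ : GQ →* M)
    (hψ : GaloisFactorsThroughFiniteLevel ψ) (θ : ZMod N →* M) (S : Finset ℕ)
    (hS : ∀ p : ℕ, p.Prime → p ∣ N → p ∈ S)
    (h : ∀ (p : ℕ) (A : ValuationSubring Qb) (σ : GQ), p.Prime → p ∉ S → A.LiesOverPrime p →
      A.IsFrobeniusAt σ p → ψ σ = θ (p : ZMod N))
    (g : GQ) (u : ℕ) (hg : ∀ ζ : Qb, ζ ^ N = 1 → g ζ = ζ ^ u) : ψ g = θ (u : ZMod N) := by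
  obtain ⟨L, hL, hker⟩ := hψ
  obtain ⟨ζ, hζ⟩ := HasEnoughRootsOfUnity.exists_primitiveRoot Qb N
  have := Frob.isAlgebraicQbar
  have hfd : FiniteDimensional ℚ (IntermediateField.adjoin ℚ {ζ}) :=
    IntermediateField.adjoin.finiteDimensional (Algebra.IsAlgebraic.isAlgebraic ζ).isIntegral
  have hfd2 : FiniteDimensional ℚ (L ⊔ IntermediateField.adjoin ℚ {ζ} : IntermediateField ℚ Qb) :=
    IntermediateField.finiteDimensional_sup _ _
  obtain ⟨p, A, σ, b, hp, hpS, hA, hσ, hx⟩ :=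
    ES.FrobDensity.exists_frobenius_pow (L ⊔ IntermediateField.adjoin ℚ {ζ}) S g
  have hpN : ¬ p ∣ N := fun hd => hpS (hS p hp hd)
  have h6 : ψ ((σ ^ b)⁻¹ * g) = 1 := by
    refine hker _ fun x hxL => ?_
    rw [AlgEquiv.mul_apply, hx x ((le_sup_left : L ≤ _) hxL)]
    exact (σ ^ b).symm_apply_apply x
  have h7 : g = σ ^ b * ((σ ^ b)⁻¹ * g) := by group
  have h8 : ψ g = θ (p : ZMod N) ^ b := by
    rw [h7, map_mul, h6, mul_one, map_pow, h p A σ hp hpS hA hσ]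
  rw [h8, ← map_pow]
  congr 1
  have h9 : ζ ^ u = ζ ^ (p ^ b) := by
    rw [← hg ζ hζ.pow_eq_one, ← acyc_frob_pow hp hpN A hA σ hσ ζ hζ.pow_eq_one b]
    exact hx ζ ((le_sup_right : IntermediateField.adjoin ℚ {ζ} ≤ _)
      (IntermediateField.mem_adjoin_simple_self ℚ ζ))
  have hζ0 : ζ ≠ 0 := hζ.ne_zero (NeZero.ne N)
  have h10 : u ≡ p ^ b [MOD N] := by
    have h11 : (Units.mk0 ζ hζ0) ^ u = (Units.mk0 ζ hζ0) ^ (p ^ b) := Units.ext (by simpa using h9)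
    rw [pow_eq_pow_iff_modEq] at h11
    have h12 : orderOf (Units.mk0 ζ hζ0) = N := by
      rw [← orderOf_units, Units.val_mk0, hζ.eq_orderOf]
    rwa [h12] at h11
  rw [← Nat.cast_pow]
  exact ((ZMod.natCast_eq_natCast_iff _ _ _).2 h10).symm

theorem isIntegral_eps {N : ℕ} [NeZero N] (ε : DirichletCharacter ℂ N) (u : ZMod N) :
    IsIntegral ℤ (ε u) := by
  by_cases hu : IsUnit u
  · obtain ⟨v, rfl⟩ := hu
    have h1 : (ε (v : ZMod N)) ^ (Fintype.card (ZMod N)ˣ) = 1 := by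
      rw [← map_pow, ← Units.val_pow_eq_pow_val, pow_card_eq_one, Units.val_one, map_one]
    exact IsIntegral.of_pow Fintype.card_pos (by rw [h1]; exact isIntegral_one)
  · rw [MulChar.map_nonunit ε hu]
    exact isIntegral_zero

/-- complex conjugation has determinant `-1` -/
theorem exists_conj_det : ∃ c : GQ, c * c = 1 ∧
    ∀ (N : ℕ) [NeZero N] (ε : DirichletCharacter ℂ N) (a : ℕ → ℂ) (ℓ : ℕ) (k : Type) [Field k]
      (φ : Zbar →+* k) (r : GQ →* GL (Fin 2) k), ℓ.Prime → ε (-1) = -1 → Res N ε a ℓ φ r →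
      (r c : Matrix (Fin 2) (Fin 2) k).det = -1 := by
  obtain ⟨c, hc1, hc2⟩ := S30.exists_conj
  refine ⟨c, hc1, ?_⟩
  intro N _ ε a ℓ k _ φ r hℓ hodd hres
  let ψ : GQ →* k := (Matrix.detMonoidHom.comp (Units.coeHom _)).comp r
  let θ : ZMod N →* k :=
    { toFun := fun u => φ ⟨ε u, isIntegral_eps ε u⟩
      map_one' := by
        have : (⟨ε 1, isIntegral_eps ε 1⟩ : Zbar) = 1 := Subtype.ext (map_one ε)
        rw [this, map_one]
      map_mul' := fun x y => by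
        have : (⟨ε (x * y), isIntegral_eps ε (x * y)⟩ : Zbar) =
            ⟨ε x, isIntegral_eps ε x⟩ * ⟨ε y, isIntegral_eps ε y⟩ := Subtype.ext (map_mul ε x y)
        rw [this, map_mul] }
  have hψ : GaloisFactorsThroughFiniteLevel ψ := by
    obtain ⟨L, hL, hker⟩ := hres.fin
    refine ⟨L, hL, fun σ hσ => ?_⟩
    change (r σ : Matrix (Fin 2) (Fin 2) k).det = 1
    rw [hker σ hσ]
    simp
  have hNℓ : N * ℓ ≠ 0 := Nat.mul_ne_zero (NeZero.ne N) hℓ.ne_zero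
  have key := eq_of_cyclo N ψ hψ θ (N * ℓ).primeFactors
    (fun p hp hd => Nat.mem_primeFactors.2 ⟨hp, hd.mul_right ℓ, hNℓ⟩)
    (fun p A σ hp hpS hA hσ => by
      have hnd : ¬ p ∣ N * ℓ := fun hd => hpS (Nat.mem_primeFactors.2 ⟨hp, hd, hNℓ⟩)
      exact hres.det p hp hnd A hA σ hσ ⟨ε (p : ZMod N), isIntegral_eps ε _⟩ rfl)
    c (N - 1) (fun ζ hζ => by
      rw [hc2 N ζ (NeZero.pos N) hζ]
      have hζ0 : ζ ≠ 0 := by
        rintro rfl
        rw [zero_pow (NeZero.ne N)] at hζ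
        exact zero_ne_one hζ
      refine inv_eq_of_mul_eq_one_right ?_
      rw [← pow_succ', Nat.sub_add_cancel (NeZero.pos N), hζ])
  change (r c : Matrix (Fin 2) (Fin 2) k).det = θ ((N - 1 : ℕ) : ZMod N) at key
  rw [key]
  have h1 : ((N - 1 : ℕ) : ZMod N) = -1 := by
    rw [Nat.cast_sub (NeZero.pos N), ZMod.natCast_self, Nat.cast_one, zero_sub]
  change φ ⟨ε ((N - 1 : ℕ) : ZMod N), _⟩ = -1
  have h2 : (⟨ε ((N - 1 : ℕ) : ZMod N), isIntegral_eps ε _⟩ : Zbar) = -1 :=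
    Subtype.ext (by
      change ε ((N - 1 : ℕ) : ZMod N) = ((-1 : Zbar) : ℂ)
      rw [h1, hodd]
      rfl)
  rw [h2, map_neg, map_one]

end Fermat.Agent.S48
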