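import Fermat.Agent.S48.Defs
import Fermat.Prelude.Def_Deformations_MatrixRepresentation

/-!
# S48 / layer A : definitions (the interface between layer A and the other layers)
-/

set_option autoImplicit false

noncomputable section

namespace Fermat.Agent.S48

open CongruenceSubgroup Matrix

/-- the hypotheses of S48 -/
structure Hyp (N : ℕ) [NeZero N] (ε : DirichletCharacter ℂ N) (f : CuspForm (Gamma1 N) 1) : Prop where
  one : ModularFormClass.qCoeff f 1 = 1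
  hecke : ∀ p : ℕ, p.Prime → ¬ p ∣ N → ∀ n : ℕ,
    ModularFormClass.qCoeff f (p * n) +
        ε (p : ZMod N) * (if p ∣ n then ModularFormClass.qCoeff f (n / p) else 0) =
      ModularFormClass.qCoeff f p * ModularFormClass.qCoeff f n

/-- `r` is a mod `ℓ` representation attached to the system `(a_p, ε(p))` via `φ` -/
structure Res (N : ℕ) (ε : DirichletCharacter ℂ N) (a : ℕ → ℂ) (ℓ : ℕ) {k : Type} [Field k]
    (φ : Zbar →+* k) (r : GQ →* GL (Fin 2) k) : Prop where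
  fin : GaloisFactorsThroughFiniteLevel r
  unr : ∀ p : ℕ, p.Prime → ¬ p ∣ N * ℓ → ∀ A : ValuationSubring Qb, A.LiesOverPrime p →
    ∀ σ ∈ A.inertiaSubgroupIn ℚ, r σ = 1
  tr : ∀ p : ℕ, p.Prime → ¬ p ∣ N * ℓ → ∀ A : ValuationSubring Qb, A.LiesOverPrime p →
    ∀ σ : GQ, A.IsFrobeniusAt σ p → ∀ x : Zbar, (x : ℂ) = a p →
      (r σ : Matrix (Fin 2) (Fin 2) k).trace = φ x
  det : ∀ p : ℕ, p.Prime → ¬ p ∣ N * ℓ → ∀ A : ValuationSubring Qb, A.LiesOverPrime p →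
    ∀ σ : GQ, A.IsFrobeniusAt σ p → ∀ y : Zbar, (y : ℂ) = ε (p : ZMod N) →
      (r σ : Matrix (Fin 2) (Fin 2) k).det = φ y

/-- there is a mod `ℓ` representation (over an algebraically closed field of characteristic `ℓ`) -/
def HasRes (N : ℕ) (ε : DirichletCharacter ℂ N) (a : ℕ → ℂ) (ℓ : ℕ) : Prop :=
  ∃ (k : Type) (_ : Field k) (_ : IsAlgClosed k) (_ : CharP k ℓ) (φ : Zbar →+* k)
    (r : GQ →* GL (Fin 2) k), Res N ε a ℓ φ r

open Classical in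
/-- everything layer A needs to know about the system of eigenvalues -/
structure Sys (N : ℕ) (ε : DirichletCharacter ℂ N) (a : ℕ → ℂ) : Prop where
  /-- (I1) -/
  integral : ∀ p : ℕ, p.Prime → ¬ p ∣ N → IsIntegral ℤ (a p)
  /-- (I2) Rankin -/
  rankin : UB (fun p => if p ∣ N then 0 else ‖a p‖ ^ 2) 1
  /-- (I3) -/
  finite : ∀ η : ℝ, 0 < η → ∃ Y : Set ℂ, Y.Finite ∧ UB (fun p => if p ∣ N ∨ a p ∈ Y then 0 else 1) η
  /-- (H) -/
  odd : ε (-1) = -1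
  /-- (R) -/
  res : ∃ ℓ₀ : ℕ, ∀ ℓ : ℕ, ℓ.Prime → ℓ₀ < ℓ → HasRes N ε a ℓ

/-- `ρ` is a complex representation attached to the system outside `D` -/
structure Att (N : ℕ) (ε : DirichletCharacter ℂ N) (a : ℕ → ℂ) (D : ℕ) (ρ : GQ →* GL (Fin 2) ℂ) : Prop where
  fin : GaloisFactorsThroughFiniteLevel ρ
  unr : ∀ p : ℕ, p.Prime → ¬ p ∣ D → ∀ A : ValuationSubring Qb, A.LiesOverPrime p →
    ∀ σ ∈ A.inertiaSubgroupIn ℚ, ρ σ = 1
  tr : ∀ p : ℕ, p.Prime → ¬ p ∣ D → ∀ A : ValuationSubring Qb, A.LiesOverPrime p →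
    ∀ σ : GQ, A.IsFrobeniusAt σ p → (ρ σ : Matrix (Fin 2) (Fin 2) ℂ).trace = a p
  det : ∀ p : ℕ, p.Prime → ¬ p ∣ D → ∀ A : ValuationSubring Qb, A.LiesOverPrime p →
    ∀ σ : GQ, A.IsFrobeniusAt σ p → (ρ σ : Matrix (Fin 2) (Fin 2) ℂ).det = ε (p : ZMod N)

end Fermat.Agent.S48
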