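import Fermat.Agent.S48.IF.C

/-!
# S48 / A-DENS, A-MEAN : consequences of Chebotarev (`chebotarev_if`) for upper bounds `UB`
[keys S48/A-DENS (`tendsto_Lam`, `nonpos_of_mul_Lam_le`, `primeSum_le`, `card_le_of_UB`; ~250 lines) and S48/A-MEAN (`mean_le_of_UB`; ~250 lines); only real analysis of sums]

* `tendsto_Lam`: copy of `Cheb.tendsto_Lam` (`Fermat/Agent/Cheb/Main.lean`, 12 lines; do not import Cheb here).
* `nonpos_of_mul_Lam_le`: `c * Lam s ≤ C` eventually (`s → 1+`) ⇒ `c ≤ 0` (else `Lam s ≤ C / c`, contradiction with `tendsto_Lam`).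
* `primeSum_le`: `P p → p ∈ S ∨ w p`, `UB 1_w η` with constant `C` ⇒ `primeSum P s ≤ |S| + η Lam s + C` for `1 < s < 2`.
  [`Real.tsum_le_of_sum_le`-type lemma (`tsum_le_of_sum_le'`, the terms are `≥ 0`): for a finite `F`:
  `∑_{p ∈ F} [p prime, P p] p^{-s} ≤ ∑_{p ∈ F ∩ S} 1 + ∑_{p ∈ F.filter Prime} 1_w(p) p^{-s}`, `p^{-s} ≤ 1` for `p ≥ 1`.]
* `card_le_of_UB`: for every `e > 0`, eventually `(|B|/|G| - e) Lam s ≤ primeSum P s ≤ |S| + η Lam s + C` with `P p := p ∈ S ∨ w p`; so `|B|/|G| - e - η ≤ 0`; `e → 0` (`le_of_forall_pos_le_add`).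
* `mean_le_of_UB`: `V = image F univ` (finite set of values), `B_v = F⁻¹ v`, `P_v p := p ∈ S ∨ w p = v`.  `∑_g F g = ∑_{v ∈ V} v |B_v|`.   For `e > 0`, eventually for all `v ∈ V` (finite intersection, `Filter.eventually_all_finset`)
  `(|B_v|/|G| - e) Lam s ≤ primeSum P_v s`.   For `1 < s < 2` and all `v ∈ V`, `v ≥ 0`:  `∑_{v ∈ V} v * primeSum P_v s ≤ (∑_{v∈V} v) |S| + d Lam s + C`:
  again by finite partial sums (`primeSum P_v s = ∑'`, summable because bounded by `∑ n^{-s}`: `Real.summable_nat_rpow_inv` / or use `tsum_le_of_sum_le'` after writing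
  `∑_v v * ∑'_p … = ∑'_p ∑_v …` with `Summable.tsum_finsetSum`, `tsum_mul_left`): for `p ∉ S` prime `∑_{v ∈ V} v [w p = v] ≤ w p` (at most one term; `w p ≥ 0`).
  So `((∑_g F g)/|G| - e ∑ v - d) Lam s ≤ const`; `nonpos_of_mul_Lam_le`; `e → 0`.
-/

set_option autoImplicit false

namespace Fermat.Agent.S48

open Filter Topology

theorem tendsto_Lam : Tendsto Lam (𝓝[>] (1 : ℝ)) atTop := Cheb.tendsto_Lam

theorem nonpos_of_mul_Lam_le (c C : ℝ) (h : ∀ᶠ s in 𝓝[>] (1 : ℝ), c * Lam s ≤ C) : c ≤ 0 := by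
  by_contra hc
  push Not at hc
  have h2 := tendsto_Lam.eventually_gt_atTop (C / c)
  obtain ⟨s, hs1, hs2⟩ := (h.and h2).exists
  rw [div_lt_iff₀ hc] at hs2
  linarith

theorem adens_rpow_le_one {p : ℕ} (hp : p.Prime) {s : ℝ} (hs : 1 < s) : (p : ℝ) ^ (-s) ≤ 1 :=
  Real.rpow_le_one_of_one_le_of_nonpos (by exact_mod_cast hp.one_lt.le) (by linarith)

theorem adens_hasSum (P : ℕ → Prop) [∀ p : ℕ, Decidable (p.Prime ∧ P p)] {s : ℝ} (hs : 1 < s) :
    HasSum (fun p : ℕ => if p.Prime ∧ P p then (p : ℝ) ^ (-s) else 0) (primeSum P s) := by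
  have hsum : Summable (fun p : ℕ => if p.Prime ∧ P p then (p : ℝ) ^ (-s) else 0) := by
    refine Summable.of_nonneg_of_le (fun p => ?_) (fun p => ?_)
      (Real.summable_nat_rpow.mpr (by linarith : -s < -1))
    · split_ifs
      · positivity
      · exact le_rfl
    · split_ifs
      · exact le_rfl
      · positivity
  have h1 : primeSum P s = ∑' p : ℕ, if p.Prime ∧ P p then (p : ℝ) ^ (-s) else 0 := by
    unfold primeSum
    exact tsum_congr fun p => by congr
  rw [h1]
  exact hsum.hasSum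

open Classical in
theorem primeSum_le (P w : ℕ → Prop) (S : Finset ℕ) (hP : ∀ p, P p → p ∈ S ∨ w p) (η C : ℝ)
    (hC : ∀ s : ℝ, 1 < s → s < 2 → ∀ F : Finset ℕ, (∀ p ∈ F, p.Prime) →
      ∑ p ∈ F, (if w p then (1 : ℝ) else 0) * (p : ℝ) ^ (-s) ≤ η * Lam s + C)
    (s : ℝ) (h1 : 1 < s) (h2 : s < 2) : primeSum P s ≤ S.card + (η * Lam s + C) := by
  refine hasSum_le_of_sum_le (adens_hasSum P h1) fun F => ?_
  have hterm : ∀ p ∈ F, (if p.Prime ∧ P p then (p : ℝ) ^ (-s) else 0) ≤
      (if p ∈ S then (1 : ℝ) else 0) +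
        (if p.Prime then (if w p then (1 : ℝ) else 0) * (p : ℝ) ^ (-s) else 0) := by
    intro p _
    have hpos : (0 : ℝ) ≤ (p : ℝ) ^ (-s) := by positivity
    by_cases hp : p.Prime
    · have hle := adens_rpow_le_one hp h1
      by_cases hPp : P p
      · rw [if_pos ⟨hp, hPp⟩, if_pos hp]
        rcases hP p hPp with hS | hw
        · rw [if_pos hS]
          split_ifs <;> linarith
        · rw [if_pos hw, one_mul]
          split_ifs <;> linarith
      · rw [if_neg (fun h => hPp h.2), if_pos hp]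
        split_ifs <;> linarith
    · rw [if_neg (fun h => hp h.1), if_neg hp]
      split_ifs <;> linarith
  refine (Finset.sum_le_sum hterm).trans ?_
  rw [Finset.sum_add_distrib]
  refine add_le_add ?_ ?_
  · rw [← Finset.sum_filter, Finset.sum_const, nsmul_eq_mul, mul_one]
    exact_mod_cast Finset.card_le_card fun p hp => (Finset.mem_filter.1 hp).2
  · rw [← Finset.sum_filter]
    exact hC s h1 h2 _ fun p hp => (Finset.mem_filter.1 hp).2

open Classical in
theorem card_le_of_UB {G : Type} [Group G] [Finite G] (r : GQ →* G) (hsurj : Function.Surjective r)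
    (hfin : GaloisFactorsThroughFiniteLevel r) (B : Set G) (w : ℕ → Prop) (S : Finset ℕ)
    (h : ∀ (p : ℕ) (A : ValuationSubring Qb) (σ : GQ), p.Prime → A.LiesOverPrime p →
      A.IsFrobeniusAt σ p → r σ ∈ B → p ∈ S ∨ w p)
    (η : ℝ) (hUB : UB (fun p => if w p then 1 else 0) η) :
    (Nat.card B : ℝ) ≤ η * Nat.card G := by
  obtain ⟨C, hC⟩ := hUB
  have hG : (0 : ℝ) < Nat.card G := by exact_mod_cast Nat.card_pos
  rw [← div_le_iff₀ hG]
  refine le_of_forall_pos_le_add fun e he => ?_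
  have h1 := chebotarev_if r hsurj hfin B (fun p => p ∈ S ∨ w p) h e he
  have h2 : ∀ᶠ s in 𝓝[>] (1 : ℝ), s ∈ Set.Ioo (1 : ℝ) 2 := Ioo_mem_nhdsGT (by norm_num)
  have h3 := nonpos_of_mul_Lam_le ((Nat.card B : ℝ) / Nat.card G - e - η) (S.card + C) (by
    filter_upwards [h1, h2] with s hs1 hs2
    have := primeSum_le (fun p => p ∈ S ∨ w p) w S (fun p hp => hp) η C hC s hs2.1 hs2.2
    nlinarith)
  linarith

theorem mean_le_of_UB {G : Type} [Group G] [Fintype G] (r : GQ →* G) (hsurj : Function.Surjective r)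
    (hfin : GaloisFactorsThroughFiniteLevel r) (F : G → ℝ) (w : ℕ → ℝ) (hw : ∀ p, 0 ≤ w p)
    (S : Finset ℕ)
    (h : ∀ (p : ℕ) (A : ValuationSubring Qb) (σ : GQ), p.Prime → p ∉ S → A.LiesOverPrime p →
      A.IsFrobeniusAt σ p → w p = F (r σ))
    (hF : ∀ g, 0 ≤ F g) (d : ℝ) (hUB : UB w d) :
    ∑ g, F g ≤ d * Fintype.card G := by
  classical
  obtain ⟨C, hC⟩ := hUB
  have hG : (0 : ℝ) < Fintype.card G := by exact_mod_cast Fintype.card_pos
  set V : Finset ℝ := Finset.univ.image F with hV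
  have hV0 : ∀ v ∈ V, 0 ≤ v := by
    intro v hv
    obtain ⟨g, _, rfl⟩ := Finset.mem_image.1 hv
    exact hF g
  set T : ℝ := ∑ v ∈ V, v with hT
  have hT0 : 0 ≤ T := Finset.sum_nonneg hV0
  let P : ℝ → ℕ → Prop := fun v p => p ∈ S ∨ w p = v
  -- the sum by level sets
  have hsum : ∑ g, F g = ∑ v ∈ V, v * (Nat.card {g : G | F g = v} : ℝ) := by
    have h1 := Finset.sum_comp (s := (Finset.univ : Finset G)) (fun x : ℝ => x) F
    rw [h1]
    refine Finset.sum_congr rfl fun v _ => ?_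
    rw [nsmul_eq_mul, mul_comm]
    congr 2
    rw [Nat.card_eq_fintype_card, Fintype.card_subtype]
    rfl
  -- upper bound
  have hup : ∀ s : ℝ, 1 < s → s < 2 → ∑ v ∈ V, v * primeSum (P v) s ≤ T * S.card + (d * Lam s + C) := by
    intro s h1 h2
    have hs : HasSum (fun p : ℕ => ∑ v ∈ V, v * (if p.Prime ∧ P v p then (p : ℝ) ^ (-s) else 0))
        (∑ v ∈ V, v * primeSum (P v) s) :=
      hasSum_sum fun v _ => (adens_hasSum (P v) h1).mul_left v
    refine hasSum_le_of_sum_le hs fun Fs => ?_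
    have hterm : ∀ p ∈ Fs, (∑ v ∈ V, v * (if p.Prime ∧ P v p then (p : ℝ) ^ (-s) else 0)) ≤
        (if p ∈ S then T else 0) + (if p.Prime then w p * (p : ℝ) ^ (-s) else 0) := by
      intro p _
      have hpos : (0 : ℝ) ≤ (p : ℝ) ^ (-s) := by positivity
      by_cases hp : p.Prime
      · have hle := adens_rpow_le_one hp h1
        rw [if_pos hp]
        by_cases hS : p ∈ S
        · rw [if_pos hS]
          have : (∑ v ∈ V, v * (if p.Prime ∧ P v p then (p : ℝ) ^ (-s) else 0)) ≤ T := by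
            refine Finset.sum_le_sum fun v hv => ?_
            have := hV0 v hv
            split_ifs
            · nlinarith
            · linarith
          have h3 := mul_nonneg (hw p) hpos
          linarith
        · rw [if_neg hS, zero_add]
          have e1 : ∀ v ∈ V, v * (if p.Prime ∧ P v p then (p : ℝ) ^ (-s) else 0) =
              if w p = v then w p * (p : ℝ) ^ (-s) else 0 := by
            intro v _
            by_cases hv : w p = v
            · rw [if_pos ⟨hp, Or.inr hv⟩, if_pos hv, hv]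
            · rw [if_neg (fun hh => hh.2.elim hS hv), if_neg hv, mul_zero]
          rw [Finset.sum_congr rfl e1, Finset.sum_ite_eq]
          have h3 := mul_nonneg (hw p) hpos
          split_ifs <;> linarith
      · rw [if_neg hp, add_zero]
        have : (∑ v ∈ V, v * (if p.Prime ∧ P v p then (p : ℝ) ^ (-s) else 0)) = 0 :=
          Finset.sum_eq_zero fun v _ => by rw [if_neg (fun hh => hp hh.1), mul_zero]
        rw [this]
        split_ifs <;> linarith
    refine (Finset.sum_le_sum hterm).trans ?_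
    rw [Finset.sum_add_distrib]
    refine add_le_add ?_ ?_
    · rw [← Finset.sum_filter, Finset.sum_const, nsmul_eq_mul, mul_comm]
      refine mul_le_mul_of_nonneg_left ?_ hT0
      exact_mod_cast Finset.card_le_card fun p hp => (Finset.mem_filter.1 hp).2
    · rw [← Finset.sum_filter]
      exact hC s h1 h2 _ fun p hp => (Finset.mem_filter.1 hp).2
  rw [← div_le_iff₀ hG]
  refine le_of_forall_pos_le_add fun ε hε => ?_
  set e : ℝ := ε / (T + 1) with he
  have he0 : 0 < e := by positivity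
  have heT : e * T ≤ ε := by
    rw [he, div_mul_eq_mul_div, div_le_iff₀ (by positivity)]
    nlinarith
  have h1 : ∀ᶠ s in 𝓝[>] (1 : ℝ), ∀ v ∈ V,
      ((Nat.card {g : G | F g = v} : ℝ) / Nat.card G - e) * Lam s ≤ primeSum (P v) s := by
    rw [Filter.eventually_all_finset]
    intro v _
    refine chebotarev_if r hsurj hfin {g : G | F g = v} (P v) ?_ e he0
    intro p A σ hp hA hσ hB
    by_cases hS : p ∈ S
    · exact Or.inl hS
    · exact Or.inr ((h p A σ hp hS hA hσ).trans hB)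
  have h2 : ∀ᶠ s in 𝓝[>] (1 : ℝ), s ∈ Set.Ioo (1 : ℝ) 2 := Ioo_mem_nhdsGT (by norm_num)
  have h3 := nonpos_of_mul_Lam_le ((∑ g, F g) / Fintype.card G - e * T - d) (T * S.card + C) (by
    filter_upwards [h1, h2] with s hs1 hs2
    have h4 := hup s hs2.1 hs2.2
    have h5 : ∑ v ∈ V, v * (((Nat.card {g : G | F g = v} : ℝ) / Nat.card G - e) * Lam s) ≤
        ∑ v ∈ V, v * primeSum (P v) s :=
      Finset.sum_le_sum fun v hv => mul_le_mul_of_nonneg_left (hs1 v hv) (hV0 v hv)
    have h6 : ∑ v ∈ V, v * (((Nat.card {g : G | F g = v} : ℝ) / Nat.card G - e) * Lam s) =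
        ((∑ g, F g) / Fintype.card G - e * T) * Lam s := by
      rw [hsum, hT, Finset.sum_div, Finset.mul_sum, ← Finset.sum_sub_distrib, Finset.sum_mul]
      refine Finset.sum_congr rfl fun v _ => ?_
      rw [Nat.card_eq_fintype_card (α := G)]
      ring
    rw [h6] at h5
    nlinarith)
  linarith

end Fermat.Agent.S48
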