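import Fermat.Agent.S48.A.Irr
import Fermat.Agent.S48.A.Cyclo
import Fermat.Agent.S48.P.Exp

/-!
# S48 / A-EXPO : the eigenvalues of all `rhobar_ℓ (g)` are `e`-th roots of unity, `e` independent of `ℓ`
[key S48/A-EXPO, ~350 lines; from `Sys.finite` (I3), `card_le_of_UB`, `finite_range`, `P.exists_pow_eq_one_of_dense`, `isIntegral_eps`]

`η = 1/4`: `Y` finite with `UB 1_{p ∤ N, a_p ∉ Y} (1/4)`.   `Yz : Finset Zbar` = the elements of `Zbar` whose coercion lies in `Y` (finite: the coercion is injective),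
`Ez : Finset Zbar` = the values `⟨ε u, isIntegral_eps ε u⟩`, `u : ZMod N` (`Finset.univ.image`).  `M := Yz.card * Ez.card`, `e := (8 * M)!` (`Nat.factorial`), independent of `ℓ, k, φ, r`.
Given `Res N ε a ℓ φ r`:  `G := r.range`, finite (`finite_range`), `r' := r.rangeRestrict` onto, finite level (same `L`; `Subtype.ext`).
`P := (Yz ×ˢ Ez).image (fun (y, z) => (φ y, φ z))`, `P.card ≤ M` (`Finset.card_image_le`, `Finset.card_product`).
`B := {m : G | (tr m, det m) ∉ P}`, `w p := ¬ (p ∣ N ∨ a p ∈ Y)`, `S := (N * ℓ).primeFactors`.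
Hypothesis of `card_le_of_UB`: `p` prime, `σ` Frobenius at `A | p`, `r' σ ∈ B`; if `p ∉ S` then `p ∤ N ℓ`; `x := ⟨a p, h.integral ..⟩`; `tr (r σ) = φ x`, `det (r σ) = φ ⟨ε p, _⟩`; if `a p ∈ Y` then `x ∈ Yz` and `(tr, det) ∈ P`, contradiction.  So `w p`.
(`UB (fun p => if w p then 1 else 0)`: rewrite `if ¬ c then 1 else 0 = if c then 0 else 1`, `ite_not`.)
`|B| ≤ |G| / 4`; `H := Bᶜ`, `|H| = |G| - |B|` (`Nat.card` of a complement: `Set.ncard_compl`/`Fintype.card_compl_set`), so `3 |G| ≤ 4 |H|`.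
`P.exists_pow_eq_one_of_dense (G.subtype) H P …` at `r' g`: `α^m = 1`, `0 < m ≤ 8 P.card ≤ 8 M`, so `m ∣ e` (`Nat.dvd_factorial`) and `α^e = 1`.
-/

set_option autoImplicit false

namespace Fermat.Agent.S48

open Matrix

theorem exists_exponent {N : ℕ} [NeZero N] {ε : DirichletCharacter ℂ N} {a : ℕ → ℂ} (h : Sys N ε a) :
    ∃ e : ℕ, 0 < e ∧ ∀ (ℓ : ℕ) (k : Type) [Field k] (φ : Zbar →+* k) (r : GQ →* GL (Fin 2) k),
      ℓ.Prime → Res N ε a ℓ φ r → ∀ (g : GQ) (α : k),
        α * α - (r g : Matrix (Fin 2) (Fin 2) k).trace * α + (r g : Matrix (Fin 2) (Fin 2) k).det = 0 →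
        α ^ e = 1 := by
  classical
  obtain ⟨Y, hYf, hUB⟩ := h.finite (1 / 4) (by norm_num)
  have hYzf : {z : Zbar | (z : ℂ) ∈ Y}.Finite := hYf.preimage Subtype.val_injective.injOn
  set Yz : Finset Zbar := hYzf.toFinset with hYz
  set Ez : Finset Zbar :=
    Finset.univ.image (fun u : ZMod N => (⟨ε u, isIntegral_eps ε u⟩ : Zbar)) with hEz
  set M : ℕ := Yz.card * Ez.card with hM
  refine ⟨(8 * M).factorial, Nat.factorial_pos _, fun ℓ k _ φ r hℓ hr g α hα => ?_⟩
  have hfinG : Finite r.range := finite_range r hr.fin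
  set r' : GQ →* r.range := r.rangeRestrict with hr'
  have hsurj : Function.Surjective r' := r.rangeRestrict_surjective
  have hfin' : GaloisFactorsThroughFiniteLevel r' := by
    obtain ⟨L, hL, hk⟩ := hr.fin
    exact ⟨L, hL, fun σ hσ => Subtype.ext (hk σ hσ)⟩
  set P : Finset (k × k) := (Yz ×ˢ Ez).image (fun yz => (φ yz.1, φ yz.2)) with hP
  have hPcard : P.card ≤ M := Finset.card_image_le.trans (by rw [Finset.card_product])
  set B : Set r.range := {m | (((m : GL (Fin 2) k) : Matrix (Fin 2) (Fin 2) k).trace,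
    ((m : GL (Fin 2) k) : Matrix (Fin 2) (Fin 2) k).det) ∉ P} with hB
  have hNℓ : N * ℓ ≠ 0 := Nat.mul_ne_zero (NeZero.ne N) hℓ.ne_zero
  have hBcard := card_le_of_UB r' hsurj hfin' B (fun p => ¬ (p ∣ N ∨ a p ∈ Y)) (N * ℓ).primeFactors
    (by
      intro p A σ hp hA hσ hmem
      by_cases hpS : p ∈ (N * ℓ).primeFactors
      · exact Or.inl hpS
      · right
        have hpN : ¬ p ∣ N * ℓ := fun hd => hpS (Nat.mem_primeFactors.mpr ⟨hp, hd, hNℓ⟩)
        have hpN' : ¬ p ∣ N := fun hd => hpN (Dvd.dvd.mul_right hd ℓ)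
        rintro (hc | hc)
        · exact hpN' hc
        · apply hmem
          have e1 := hr.tr p hp hpN A hA σ hσ ⟨a p, h.integral p hp hpN'⟩ rfl
          have e2 := hr.det p hp hpN A hA σ hσ ⟨ε (p : ZMod N), isIntegral_eps ε _⟩ rfl
          rw [hP, Finset.mem_image]
          refine ⟨(⟨a p, h.integral p hp hpN'⟩, ⟨ε (p : ZMod N), isIntegral_eps ε _⟩), ?_, ?_⟩
          · rw [Finset.mem_product]
            exact ⟨hYzf.mem_toFinset.mpr hc, Finset.mem_image.mpr ⟨_, Finset.mem_univ _, rfl⟩⟩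
          · exact Prod.ext e1.symm e2.symm)
    (1 / 4) (by
      convert hUB using 2 with p
      by_cases hc : p ∣ N ∨ a p ∈ Y <;> simp [hc])
  have hsum : Nat.card B + Nat.card (Bᶜ : Set r.range) = Nat.card r.range := by
    rw [Nat.card_coe_set_eq, Nat.card_coe_set_eq]
    exact Set.ncard_add_ncard_compl B
  have hB4 : 4 * Nat.card B ≤ Nat.card r.range := by
    have : (4 : ℝ) * (Nat.card B : ℝ) ≤ (Nat.card r.range : ℝ) := by linarith
    exact_mod_cast this
  obtain ⟨m, hm0, hm8, hm1⟩ := Fermat.Agent.S48.P.exists_pow_eq_one_of_dense r.range.subtype (Bᶜ : Set r.range) P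
    (by omega) (fun x hx => by
      by_contra hcon
      exact hx hcon) (r' g) α hα
  have hdvd : m ∣ (8 * M).factorial :=
    Nat.dvd_factorial hm0 (hm8.trans (Nat.mul_le_mul_left 8 hPcard))
  obtain ⟨q, hq⟩ := hdvd
  rw [hq, pow_mul, hm1, one_pow]

end Fermat.Agent.S48
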