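import Fermat.Agent.S48.A.Dens
import Fermat.Agent.Lib.Frobenius

/-!
# S48 / A-IRR : irreducibility from the Rankin bound
[key S48/A-IRR, ~400 lines; uses `mean_le_of_UB`, `finite_range` ]

* `finite_range`: finite level ⇒ `Finite ρ.range`.  [`L'` = normal closure of the level `L`; `ρ g` depends only on `AlgEquiv.restrictNormalHom L' g ∈ Gal(L'/ℚ)` (finite): if the restrictions of `g, g'` agree then
  `g⁻¹ g'` fixes `L`, `ρ (g⁻¹ g') = 1`.  `Set.Finite.subset`/`Finite.of_surjective` from `Gal(L'/ℚ)` restricted to the image, or `Finite.of_injective` on the quotient.]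
* `irreducible_of_no_line`: `Representation.IsIrreducible` is `IsSimpleOrder (Subrepresentation _)`; a subrepresentation `W ≠ ⊥, ⊤` of `Fin 2 → ℂ` has `finrank = 1`, `W = span {v}`, `v ≠ 0`,
  `ρ g *ᵥ v ∈ span {v}` for all `g`.  (Nontriviality: `Fin 2 → ℂ` is nontrivial.)
* `sum_sq_ge`: `G` finite group, `χ₁ χ₂ : G →* ℂˣ`: `∑_g ‖χ₁ g + χ₂ g‖² ≥ 2 |G|`.  [`‖χ_i g‖ = 1` (finite order: `Complex.norm_eq_one_of_pow_eq_one`); `‖x + y‖² = 2 + 2 Re (x conj y)`, `conj y = y⁻¹`;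
  `∑_g (χ₁ χ₂⁻¹) g ∈ {0, |G|}` by `sum_hom_units` (Mathlib.RingTheory.IntegralDomain), so its real part is `≥ 0`.]
* `Att.irreducible`: suppose `v ≠ 0` with `ρ g *ᵥ v = c g • v`.  `G = ρ.range` (finite), `r = ρ.rangeRestrict` (onto, finite level).  `χ₁ : G →* ℂˣ` the eigenvalue on `v` (multiplicative because `v ≠ 0`; nonzero because `m` is invertible),
  `χ₂ = det / χ₁`.  `tr m = χ₁ m + χ₂ m`: `χ₁` is a root of the characteristic polynomial: `χ₁² - tr χ₁ + det = 0` (from `m *ᵥ v = χ₁ v`, `v ≠ 0`: `det (m - χ₁) = 0`, `Matrix.exists_mulVec_eq_zero_iff`, `Matrix.det_fin_two`).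
  `mean_le_of_UB` with `F m = ‖tr m‖²`, `w p = if p ∣ N then 0 else ‖a p‖²`, `S = N.primeFactors`, `d = 1`:  `2 |G| ≤ ∑ F ≤ |G|`, contradiction.
-/

set_option autoImplicit false

namespace Fermat.Agent.S48

open Matrix

theorem finite_range {M : Type} [Group M] (ρ : GQ →* M) (h : GaloisFactorsThroughFiniteLevel ρ) :
    Finite ρ.range := by
  obtain ⟨L, hL, hk⟩ := h
  have := Frob.isGaloisQbar
  have hidx : L.fixingSubgroup.FiniteIndex := by
    refine ⟨?_⟩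
    rw [← IntermediateField.finrank_eq_fixingSubgroup_index]
    exact Module.finrank_pos.ne'
  have hfin : Finite (GQ ⧸ L.fixingSubgroup) := Subgroup.finite_quotient_of_finiteIndex
  let f : GQ ⧸ L.fixingSubgroup → M := Quotient.lift (fun g => ρ g) (by
    intro a b hab
    have h1 : a⁻¹ * b ∈ L.fixingSubgroup := QuotientGroup.leftRel_apply.1 hab
    have h2 : ρ (a⁻¹ * b) = 1 :=
      hk _ fun x hx => (IntermediateField.mem_fixingSubgroup_iff L _).1 h1 x hx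
    rw [map_mul, map_inv, inv_mul_eq_one] at h2
    exact h2)
  have hsub : (ρ.range : Set M) ⊆ Set.range f := by
    rintro _ ⟨g, rfl⟩
    exact ⟨QuotientGroup.mk g, rfl⟩
  exact ((Set.finite_range f).subset hsub).to_subtype

theorem irreducible_of_no_line {Γ : Type} [Group Γ] (ρ : Γ →* GL (Fin 2) ℂ)
    (h : ¬ ∃ v : Fin 2 → ℂ, v ≠ 0 ∧ ∀ g, ∃ c : ℂ, (ρ g : Matrix (Fin 2) (Fin 2) ℂ) *ᵥ v = c • v) :
    (Deformation.matrixRepresentation ρ).IsIrreducible := by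
  have hnt : Nontrivial (Subrepresentation (Deformation.matrixRepresentation ρ)) :=
    ⟨⊥, ⊤, fun h => by
      have h1 : (⊥ : Submodule ℂ (Fin 2 → ℂ)) = ⊤ := congrArg Subrepresentation.toSubmodule h
      exact bot_ne_top h1⟩
  refine { eq_bot_or_eq_top := fun W => ?_ }
  by_contra hcon
  push Not at hcon
  obtain ⟨hb, ht⟩ := hcon
  have hb' : W.toSubmodule ≠ ⊥ := fun h => hb (Subrepresentation.toSubmodule_injective h)
  have ht' : W.toSubmodule ≠ ⊤ := fun h => ht (Subrepresentation.toSubmodule_injective h)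
  have h1 : Module.finrank ℂ W.toSubmodule = 1 := by
    have hlt := Submodule.finrank_lt ht'
    rw [Module.finrank_fin_fun] at hlt
    have hpos : 1 ≤ Module.finrank ℂ W.toSubmodule := Submodule.one_le_finrank_iff.2 hb'
    omega
  obtain ⟨v, hv0, hspan⟩ := finrank_eq_one_iff'.1 h1
  apply h
  refine ⟨v, fun h0 => hv0 (Subtype.ext h0), fun g => ?_⟩
  obtain ⟨c, hc⟩ := hspan ⟨Deformation.matrixRepresentation ρ g v, W.apply_mem_toSubmodule g v.2⟩
  refine ⟨c, ?_⟩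
  have h2 := congrArg Subtype.val hc
  simp only [Deformation.matrixRepresentation_apply, Matrix.mulVecLin_apply] at h2
  exact h2.symm

theorem sum_sq_ge {G : Type*} [Group G] [Fintype G] (χ₁ χ₂ : G →* ℂˣ) :
    2 * (Fintype.card G : ℝ) ≤ ∑ g, ‖((χ₁ g : ℂˣ) : ℂ) + ((χ₂ g : ℂˣ) : ℂ)‖ ^ 2 := by
  classical
  have hnorm : ∀ (χ : G →* ℂˣ) (g : G), ‖((χ g : ℂˣ) : ℂ)‖ = 1 := by
    intro χ g
    refine Complex.norm_eq_one_of_pow_eq_one (n := Fintype.card G) ?_ Fintype.card_ne_zero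
    rw [← Units.val_pow_eq_pow_val, ← map_pow, pow_card_eq_one, map_one, Units.val_one]
  let f : G →* ℂ := (Units.coeHom ℂ).comp (χ₁ * χ₂⁻¹)
  have hf : ∀ g, f g = ((χ₁ g : ℂˣ) : ℂ) * (starRingEnd ℂ) ((χ₂ g : ℂˣ) : ℂ) := by
    intro g
    change (((χ₁ g) * (χ₂ g)⁻¹ : ℂˣ) : ℂ) = _
    rw [Units.val_mul, Units.val_inv_eq_inv_val, Complex.inv_eq_conj (hnorm χ₂ g)]
  have hterm : ∀ g, ‖((χ₁ g : ℂˣ) : ℂ) + ((χ₂ g : ℂˣ) : ℂ)‖ ^ 2 = 2 + 2 * (f g).re := by
    intro g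
    rw [Complex.sq_norm, Complex.normSq_add, ← Complex.sq_norm, ← Complex.sq_norm, hnorm, hnorm, hf]
    norm_num
  have hsum : 0 ≤ (∑ g, f g).re := by
    rw [sum_hom_units f]
    split_ifs <;> simp
  simp_rw [hterm]
  rw [Finset.sum_add_distrib, ← Finset.mul_sum, Finset.sum_const, Finset.card_univ, nsmul_eq_mul,
    ← Complex.re_sum]
  nlinarith

theorem Att.irreducible {N : ℕ} [NeZero N] {ε : DirichletCharacter ℂ N} {a : ℕ → ℂ}
    {ρ : GQ →* GL (Fin 2) ℂ} (H : Att N ε a N ρ)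
    (hUB : UB (fun p => if p ∣ N then 0 else ‖a p‖ ^ 2) 1) :
    (Deformation.matrixRepresentation ρ).IsIrreducible := by
  refine irreducible_of_no_line ρ ?_
  rintro ⟨v, hv, hline⟩
  have hfinr := finite_range ρ H.fin
  have := Fintype.ofFinite ρ.range
  have hline' : ∀ m : ρ.range, ∃ c : ℂ, ((m : GL (Fin 2) ℂ) : Matrix (Fin 2) (Fin 2) ℂ) *ᵥ v = c • v := by
    rintro ⟨_, g, rfl⟩
    exact hline g
  choose c hc using hline'
  have hinj : Function.Injective fun x : ℂ => x • v := smul_left_injective ℂ hv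
  let χ₀ : ρ.range →* ℂ :=
    { toFun := c
      map_one' := hinj (by
        change c 1 • v = (1 : ℂ) • v
        rw [← hc 1]
        simp)
      map_mul' := fun m m' => hinj (by
        change c (m * m') • v = (c m * c m') • v
        rw [← hc (m * m')]
        change (((m : GL (Fin 2) ℂ) * (m' : GL (Fin 2) ℂ) : GL (Fin 2) ℂ) :
          Matrix (Fin 2) (Fin 2) ℂ) *ᵥ v = _
        rw [Units.val_mul, ← Matrix.mulVec_mulVec, hc m', Matrix.mulVec_smul, hc m, smul_smul,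
          mul_comm]) }
  let χ₁ : ρ.range →* ℂˣ := χ₀.toHomUnits
  let χ₂ : ρ.range →* ℂˣ := (Matrix.GeneralLinearGroup.det.comp ρ.range.subtype) * χ₁⁻¹
  have hχ₁ : ∀ m, ((χ₁ m : ℂˣ) : ℂ) = c m := fun m => rfl
  have htr : ∀ m : ρ.range, ((m : GL (Fin 2) ℂ) : Matrix (Fin 2) (Fin 2) ℂ).trace =
      ((χ₁ m : ℂˣ) : ℂ) + ((χ₂ m : ℂˣ) : ℂ) := by
    intro m
    set μ : Matrix (Fin 2) (Fin 2) ℂ := ((m : GL (Fin 2) ℂ) : Matrix (Fin 2) (Fin 2) ℂ) with hμ
    have hc0 : c m ≠ 0 := by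
      rw [← hχ₁]
      exact (χ₁ m).ne_zero
    have hχ₂ : ((χ₂ m : ℂˣ) : ℂ) = μ.det * (c m)⁻¹ := by
      change (((Matrix.GeneralLinearGroup.det (m : GL (Fin 2) ℂ)) * (χ₁ m)⁻¹ : ℂˣ) : ℂ) = _
      rw [Units.val_mul, Units.val_inv_eq_inv_val, hχ₁]
      rfl
    have hdet : (μ - c m • (1 : Matrix (Fin 2) (Fin 2) ℂ)).det = 0 := by
      rw [← Matrix.exists_mulVec_eq_zero_iff]
      refine ⟨v, hv, ?_⟩
      rw [Matrix.sub_mulVec, Matrix.smul_mulVec, Matrix.one_mulVec, hc m, sub_self]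
    rw [hχ₁, hχ₂, Matrix.trace_fin_two, Matrix.det_fin_two]
    rw [Matrix.det_fin_two] at hdet
    simp only [Matrix.sub_apply, Matrix.smul_apply, Matrix.one_apply_eq, smul_eq_mul, mul_one,
      Matrix.one_apply_ne (show (0 : Fin 2) ≠ 1 by decide),
      Matrix.one_apply_ne (show (1 : Fin 2) ≠ 0 by decide), mul_zero, sub_zero] at hdet
    field_simp
    linear_combination (-1 : ℂ) * hdet
  have hmean := mean_le_of_UB ρ.rangeRestrict ρ.rangeRestrict_surjective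
    (by
      obtain ⟨L, hL, hk⟩ := H.fin
      exact ⟨L, hL, fun σ hσ => Subtype.ext (hk σ hσ)⟩)
    (fun m => ‖((m : GL (Fin 2) ℂ) : Matrix (Fin 2) (Fin 2) ℂ).trace‖ ^ 2)
    (fun p => if p ∣ N then 0 else ‖a p‖ ^ 2)
    (fun p => by
      split_ifs
      · exact le_rfl
      · positivity)
    N.primeFactors
    (fun p A σ hp hpS hA hσ => by
      have hnd : ¬ p ∣ N := fun hd => hpS (Nat.mem_primeFactors.2 ⟨hp, hd, NeZero.ne N⟩)
      rw [if_neg hnd, ← H.tr p hp hnd A hA σ hσ]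
      rfl)
    (fun m => by positivity) 1 hUB
  have hge := sum_sq_ge χ₁ χ₂
  simp_rw [← htr] at hge
  have hpos : (0 : ℝ) < Fintype.card ρ.range := by exact_mod_cast Fintype.card_pos
  linarith

end Fermat.Agent.S48
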